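/-
S16 piece NoCongP (helper8), part 1: `2(p-1)/B_{p-1} = p·α/β` with `p ∤ β`
(from Mathlib's von Staudt–Clausen theorem).
-/
import Mathlib

set_option autoImplicit false

namespace Fermat.Agent.S16

/-- `p`-integral rationals are closed under addition. -/
lemma ncp_not_dvd_den_add {p : ℕ} (hp : p.Prime) {r s : ℚ} (hr : ¬ p ∣ r.den) (hs : ¬ p ∣ s.den) :
    ¬ p ∣ (r + s).den := by
  intro h
  have h1 : (r + s).den ∣ r.den * s.den := Rat.add_den_dvd r s
  rcases (hp.dvd_mul).mp (h.trans h1) with h2 | h2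
  · exact hr h2
  · exact hs h2

lemma ncp_not_dvd_den_neg {p : ℕ} {r : ℚ} (hr : ¬ p ∣ r.den) : ¬ p ∣ (-r).den := by
  simpa using hr

lemma ncp_not_dvd_den_sum {p : ℕ} (hp : p.Prime) {ι : Type*} (s : Finset ι) (f : ι → ℚ)
    (h : ∀ i ∈ s, ¬ p ∣ (f i).den) : ¬ p ∣ (∑ i ∈ s, f i).den := by
  classical
  induction s using Finset.induction_on with
  | empty => simpa using hp.one_lt.ne'
  | insert a s ha ih =>
    rw [Finset.sum_insert ha]
    exact ncp_not_dvd_den_add hp (h a (Finset.mem_insert_self a s))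
      (ih fun i hi => h i (Finset.mem_insert_of_mem hi))

/-- von Staudt–Clausen at `p`: `B_{p-1} + 1/p` is `p`-integral. -/
lemma ncp_bernoulli_add_inv (p : ℕ) (hp : p.Prime) (hp3 : 3 ≤ p) :
    ¬ p ∣ (bernoulli (p - 1) + 1 / (p : ℚ)).den := by
  classical
  obtain ⟨k, hk⟩ : ∃ k, p - 1 = 2 * k := by
    have hodd : Odd p := hp.odd_of_ne_two (by omega)
    obtain ⟨m, hm⟩ := hodd
    exact ⟨m, by omega⟩
  obtain ⟨N, hN⟩ := Bernoulli.vonStaudt_clausen k
  rw [← hk] at hN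
  set P := (Finset.range (p - 1 + 2)).filter fun q => q.Prime ∧ (q - 1) ∣ (p - 1) with hP
  have hpP : p ∈ P := by
    rw [hP, Finset.mem_filter, Finset.mem_range]
    exact ⟨by omega, hp, dvd_refl _⟩
  have hsum : ∑ q ∈ P, (1 : ℚ) / q = 1 / (p : ℚ) + ∑ q ∈ P.erase p, (1 : ℚ) / q :=
    (Finset.add_sum_erase P (fun q => (1 : ℚ) / q) hpP).symm
  have hB : bernoulli (p - 1) + 1 / (p : ℚ) = (N : ℚ) + -(∑ q ∈ P.erase p, (1 : ℚ) / q) := by
    have h1 : bernoulli (p - 1) + ∑ q ∈ P, (1 : ℚ) / q = (N : ℚ) := hN.symm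
    rw [hsum] at h1
    linarith
  rw [hB]
  apply ncp_not_dvd_den_add hp
  · simpa using hp.one_lt.ne'
  · apply ncp_not_dvd_den_neg
    apply ncp_not_dvd_den_sum hp
    intro q hq
    rw [Finset.mem_erase, hP, Finset.mem_filter] at hq
    obtain ⟨hqp, -, hqprime, -⟩ := hq
    have hden : ((1 : ℚ) / (q : ℚ)).den = q := by
      simp [hqprime.ne_zero]
    rw [hden]
    intro hdvd
    exact hqp ((Nat.prime_dvd_prime_iff_eq hp hqprime).mp hdvd).symm

/-- `-(2(p-1)/B_{p-1}) = p·α/β` with integers `α, β`, `p ∤ β`. -/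
theorem ncp_bernoulli (p : ℕ) (hp : p.Prime) (hp3 : 3 ≤ p) :
    ∃ α β : ℤ, ¬ (p : ℤ) ∣ β ∧
      -(2 * ((p - 1 : ℕ) : ℚ) / bernoulli (p - 1)) = (p : ℚ) * α / β := by
  set r := bernoulli (p - 1) + 1 / (p : ℚ) with hr
  have hrden : ¬ p ∣ r.den := ncp_bernoulli_add_inv p hp hp3
  have hpQ : (p : ℚ) ≠ 0 := by exact_mod_cast hp.ne_zero
  have hvQ : (r.den : ℚ) ≠ 0 := by exact_mod_cast r.den_ne_zero
  -- `B = r - 1/p = (p u - v)/(p v)` with `r = u / v`
  have hB : bernoulli (p - 1) = ((p : ℚ) * r.num - r.den) / ((p : ℚ) * r.den) := by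
    have h1 : bernoulli (p - 1) = r - 1 / (p : ℚ) := by rw [hr]; ring
    rw [h1]
    nth_rewrite 1 [← Rat.num_div_den r]
    field_simp
  have hβ : ¬ (p : ℤ) ∣ ((p : ℤ) * r.num - r.den) := by
    intro h
    have h2 : (p : ℤ) ∣ (r.den : ℤ) := by
      have h3 : (p : ℤ) ∣ (p : ℤ) * r.num := dvd_mul_right _ _
      have := (Int.dvd_sub h3 h)
      simpa using this
    exact hrden (Int.natCast_dvd_natCast.mp h2)
  have hβ0 : ((p : ℚ) * r.num - r.den) ≠ 0 := by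
    intro h
    apply hβ
    have : ((p : ℤ) * r.num - r.den : ℤ) = 0 := by exact_mod_cast h
    rw [this]
    exact dvd_zero _
  refine ⟨-(2 * ((p - 1 : ℕ) : ℤ) * r.den), (p : ℤ) * r.num - r.den, hβ, ?_⟩
  rw [hB]
  push_cast
  field_simp

end Fermat.Agent.S16
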