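/-
S16 piece NoCongP (helper8), part 2: restriction to `Γ₀(p)` and the `q`-expansion of `β E_{p-1}`.
-/
import Mathlib
import Fermat.Agent.S16.Defs
import Fermat.Agent.S16.ToolkitAlg.Trace
import Fermat.Agent.S16.NoCongP.Bernoulli
import Fermat.Prelude.Thm_CongruenceSubgroup_one_mem_strictPeriods_Gamma0

set_option autoImplicit false

namespace Fermat.Agent.S16

open ModularCurve CuspForm UpperHalfPlane ModularFormClass ModularForm
open scoped MatrixGroups

noncomputable section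

/-- Restriction of a level one form to `Γ₀(p)`. -/
def ncpRestrict (p : ℕ) {k : ℤ} (E : ModularForm 𝒮ℒ k) :
    ModularForm (CongruenceSubgroup.Gamma0 p) k where
  toFun := E
  slash_action_eq' := fun γ hγ => E.slash_action_eq' γ (by
    obtain ⟨σ, -, rfl⟩ := Subgroup.mem_map.mp hγ
    exact ⟨σ, rfl⟩)
  holo' := E.holo'
  bdd_at_cusps' := fun hc => E.bdd_at_cusps' (hc.mono (by
    rintro _ ⟨σ, -, rfl⟩
    exact ⟨σ, rfl⟩))

@[simp] lemma ncpRestrict_coe (p : ℕ) {k : ℤ} (E : ModularForm 𝒮ℒ k) :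
    (⇑(ncpRestrict p E) : ℍ → ℂ) = ⇑E := rfl

/-- The integral power series `∑_{n ≥ 1} σ_{w-1}(n) X^n`. -/
def ncpS (w : ℕ) : PowerSeries ℤ :=
  PowerSeries.mk fun n => if n = 0 then 0 else (ArithmeticFunction.sigma (w - 1) n : ℤ)

/-- The map `ℤ⟦X⟧ → ℂ⟦X⟧`. -/
abbrev ncpI : PowerSeries ℤ →+* PowerSeries ℂ := PowerSeries.map (Int.castRingHom ℂ)

/-- `β E_w = β + p α ∑ σ_{w-1}(n) q^n` for `w = p - 1`. -/
lemma ncp_qExpansion_E {p : ℕ} (hp : p.Prime) (hp5 : 5 ≤ p) (α β : ℤ) (hβ : ¬ (p : ℤ) ∣ β)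
    (hαβ : -(2 * ((p - 1 : ℕ) : ℚ) / bernoulli (p - 1)) = (p : ℚ) * α / β)
    (hw3 : 3 ≤ p - 1) :
    (β : ℂ) • qExpansion 1 (ModularForm.E hw3) =
      ncpI (PowerSeries.C β + PowerSeries.C ((p : ℤ) * α) * ncpS (p - 1)) := by
  have hw2 : Even (p - 1) := by
    have hodd : Odd p := hp.odd_of_ne_two (by omega)
    obtain ⟨m, hm⟩ := hodd
    exact ⟨m, by omega⟩
  have hβ0 : (β : ℂ) ≠ 0 := by
    intro h
    apply hβ
    have : β = 0 := by exact_mod_cast h
    rw [this]; exact dvd_zero _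
  have hαβC : -(2 * ((p - 1 : ℕ) : ℂ) / ((bernoulli (p - 1) : ℚ) : ℂ)) = (p : ℂ) * α / β := by
    have := congrArg (fun x : ℚ => (x : ℂ)) hαβ
    simpa using this
  ext n
  rw [PowerSeries.coeff_smul, EisensteinSeries.E_qExpansion_coeff hw3 hw2 n]
  simp only [ncpI, PowerSeries.coeff_map, map_add, PowerSeries.coeff_C, PowerSeries.coeff_C_mul,
    ncpS, PowerSeries.coeff_mk]
  by_cases hn : n = 0
  · simp [hn]
  · simp only [hn, if_false]
    rw [hαβC]
    push_cast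
    rw [smul_eq_mul]
    field_simp
    simp

end

end Fermat.Agent.S16
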