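/-
S16 piece NoCongP (helper8), part 3: Serre's trace trick for `ℓ = p`.

Suppose `G ∈ M₂(Γ₀(p))` has integral `q`-expansion `A ≡ c` mod `p`.  Put `w = p - 1`,
`g = β (E_w - p^w E_w(p·))` (`β` = a denominator prime to `p` of `2w/B_w`, von Staudt–Clausen): then
`qExp g ≡ β` mod `p`, `Z g = p·(integral)`, `Z G = -(1/p) U_p A`, so the trace of `G g` to level one
is a form of weight `p + 1` with integral `q`-expansion `≡ β c` mod `p`; Swinnerton-Dyer forces
`(p - 1) ∣ (p + 1)`, impossible for `p ≥ 5`.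
-/
import Mathlib
import Fermat.Agent.S16.NoCongP.Eis

set_option autoImplicit false

namespace Fermat.Agent.S16

open ModularCurve CuspForm UpperHalfPlane ModularFormClass ModularForm
open scoped MatrixGroups

noncomputable section

/-- Pure algebra in `ℤ⟦X⟧`: the coefficients of the trace are `≡ β a_n` mod `p`. -/
lemma ncp_coeff_congr (p w : ℕ) (hp0 : p ≠ 0) (hw : 1 ≤ w) (α β : ℤ) (A S Y : PowerSeries ℤ) (n : ℕ) :
    ∃ t : ℤ, PowerSeries.coeff n
      (A * ((PowerSeries.C β + PowerSeries.C ((p : ℤ) * α) * S) -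
          PowerSeries.C ((p : ℤ) ^ w) *
            PowerSeries.expand p hp0 (PowerSeries.C β + PowerSeries.C ((p : ℤ) * α) * S)) +
        PowerSeries.C (p : ℤ) * Y) = β * PowerSeries.coeff n A + (p : ℤ) * t := by
  obtain ⟨v, rfl⟩ : ∃ v, w = v + 1 := ⟨w - 1, by omega⟩
  refine ⟨PowerSeries.coeff n (A * (PowerSeries.C α * S -
      PowerSeries.C ((p : ℤ) ^ v) *
        PowerSeries.expand p hp0 (PowerSeries.C β + PowerSeries.C ((p : ℤ) * α) * S)) + Y), ?_⟩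
  have h : A * ((PowerSeries.C β + PowerSeries.C ((p : ℤ) * α) * S) -
          PowerSeries.C ((p : ℤ) ^ (v + 1)) *
            PowerSeries.expand p hp0 (PowerSeries.C β + PowerSeries.C ((p : ℤ) * α) * S)) +
        PowerSeries.C (p : ℤ) * Y =
      PowerSeries.C β * A + PowerSeries.C (p : ℤ) * (A * (PowerSeries.C α * S -
      PowerSeries.C ((p : ℤ) ^ v) *
        PowerSeries.expand p hp0 (PowerSeries.C β + PowerSeries.C ((p : ℤ) * α) * S)) + Y) := by
    rw [pow_succ, map_mul, map_mul]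
    ring
  rw [h, map_add, PowerSeries.coeff_C_mul, PowerSeries.coeff_C_mul]

theorem noCong_self_core (p : ℕ) [Fact p.Prime] (hp5 : 5 ≤ p)
    (T : CuspZeroData p (Fact.out : p.Prime).ne_zero) (hS : SwDConst p) :
    NoCong p p 1 := by
  intro G a ha hdiv
  by_contra ha0
  have hp : p.Prime := Fact.out
  have hp0 : p ≠ 0 := hp.ne_zero
  have hpC : (p : ℂ) ≠ 0 := by exact_mod_cast hp0
  have hw3 : 3 ≤ p - 1 := by omega
  have hw2 : Even (p - 1) := by
    have hodd : Odd p := hp.odd_of_ne_two (by omega)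
    obtain ⟨m, hm⟩ := hodd
    exact ⟨m, by omega⟩
  obtain ⟨α, β, hβ, hαβ⟩ := ncp_bernoulli p hp (by omega)
  have hβ0 : (β : ℂ) ≠ 0 := by
    intro h
    apply hβ
    have : β = 0 := by exact_mod_cast h
    rw [this]; exact dvd_zero _
  have hΓ := CongruenceSubgroup.one_mem_strictPeriods_Gamma0 p
  -- the integral series
  obtain ⟨A, hA⟩ : ∃ A : PowerSeries ℤ, A = PowerSeries.mk a := ⟨_, rfl⟩
  obtain ⟨Eℤ, hEℤ⟩ : ∃ Eℤ : PowerSeries ℤ,
      Eℤ = PowerSeries.C β + PowerSeries.C ((p : ℤ) * α) * ncpS (p - 1) := ⟨_, rfl⟩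
  have hqG : qExpansion 1 G = ncpI A := by
    ext n
    rw [hA]
    simp only [ncpI, PowerSeries.coeff_map, PowerSeries.coeff_mk]
    exact ha n
  -- the Eisenstein series
  have hqE : (β : ℂ) • qExpansion 1 (ModularForm.E hw3) = ncpI Eℤ := by
    rw [hEℤ]; exact ncp_qExpansion_E hp hp5 α β hβ hαβ hw3
  obtain ⟨Ep, hEp⟩ : ∃ Ep : ModularForm (CongruenceSubgroup.Gamma0 p) ((p - 1 : ℕ) : ℤ),
      Ep = ncpRestrict p (ModularForm.E hw3) := ⟨_, rfl⟩
  have hqEp : qExpansion 1 Ep = qExpansion 1 (ModularForm.E hw3) := by rw [hEp]; rfl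
  have hZEp : T.Z ((p - 1 : ℕ) : ℤ) Ep =
      PowerSeries.expand p hp0 (qExpansion 1 (ModularForm.E hw3)) :=
    T.Z_levelOne _ (ModularForm.E hw3) Ep (by rw [hEp]; rfl)
  obtain ⟨E', hqE', hZE'⟩ := T.Z_swap ((p - 1 : ℕ) : ℤ) (by exact_mod_cast hw2) Ep
  -- the form `g`
  obtain ⟨g, hg⟩ : ∃ g : ModularForm (CongruenceSubgroup.Gamma0 p) ((p - 1 : ℕ) : ℤ),
      g = (β : ℂ) • Ep + (-((β : ℂ) * (p : ℂ) ^ (p - 1))) • E' := ⟨_, rfl⟩
  have hqg : qExpansion 1 g =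
      ncpI (Eℤ - PowerSeries.C ((p : ℤ) ^ (p - 1)) * PowerSeries.expand p hp0 Eℤ) := by
    rw [hg]
    have h1 : (⇑((β : ℂ) • Ep + (-((β : ℂ) * (p : ℂ) ^ (p - 1))) • E') : ℍ → ℂ) =
        ⇑((β : ℂ) • Ep) + ⇑((-((β : ℂ) * (p : ℂ) ^ (p - 1))) • E') := rfl
    rw [h1, ModularForm.qExpansion_add one_pos hΓ]
    have h2 : (⇑((β : ℂ) • Ep) : ℍ → ℂ) = (β : ℂ) • ⇑Ep := rfl
    have h3 : (⇑((-((β : ℂ) * (p : ℂ) ^ (p - 1))) • E') : ℍ → ℂ) =
        (-((β : ℂ) * (p : ℂ) ^ (p - 1))) • ⇑E' := rfl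
    rw [h2, h3, ModularForm.qExpansion_smul one_pos hΓ, ModularForm.qExpansion_smul one_pos hΓ,
      hqE', hZEp, hqEp]
    have h4 : (-((β : ℂ) * (p : ℂ) ^ (p - 1))) •
        PowerSeries.expand p hp0 (qExpansion 1 (ModularForm.E hw3)) =
        -(((p : ℂ) ^ (p - 1)) • PowerSeries.expand p hp0
          ((β : ℂ) • qExpansion 1 (ModularForm.E hw3))) := by
      rw [map_smul, smul_smul, _root_.neg_smul, mul_comm]
    rw [h4, hqE, map_sub, map_mul, ← PowerSeries.map_expand]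
    have h5 : ncpI (PowerSeries.C ((p : ℤ) ^ (p - 1))) = PowerSeries.C ((p : ℂ) ^ (p - 1)) := by
      simp [ncpI]
    rw [h5, ← PowerSeries.smul_eq_C_mul, sub_eq_add_neg]
  have hZg : T.Z ((p - 1 : ℕ) : ℤ) g =
      ncpI (PowerSeries.C (p : ℤ) * (PowerSeries.C α *
        (PowerSeries.expand p hp0 (ncpS (p - 1)) - ncpS (p - 1)))) := by
    rw [hg, T.Z_add, T.Z_smul, T.Z_smul, hZEp, hZE', hqEp]
    have h1 : (-((β : ℂ) * (p : ℂ) ^ (p - 1))) •
        (((p : ℂ) ^ (((p - 1 : ℕ) : ℤ)))⁻¹ • qExpansion 1 (ModularForm.E hw3)) =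
        -((β : ℂ) • qExpansion 1 (ModularForm.E hw3)) := by
      rw [zpow_natCast, smul_smul, neg_mul, mul_assoc,
        mul_inv_cancel₀ (pow_ne_zero _ hpC), mul_one, _root_.neg_smul]
    rw [h1, ← map_smul, hqE, ← PowerSeries.map_expand, ← sub_eq_add_neg, ← map_sub]
    congr 1
    rw [hEℤ, map_add, map_mul, PowerSeries.expand_C, PowerSeries.expand_C, map_mul]
    ring
  -- the product `F = G g` and its trace
  obtain ⟨gℤ, hgℤ⟩ : ∃ gℤ : PowerSeries ℤ,
      gℤ = Eℤ - PowerSeries.C ((p : ℤ) ^ (p - 1)) * PowerSeries.expand p hp0 Eℤ := ⟨_, rfl⟩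
  obtain ⟨Y, hY⟩ : ∃ Y : PowerSeries ℤ, Y = -(upSeries p A) * (PowerSeries.C α *
        (PowerSeries.expand p hp0 (ncpS (p - 1)) - ncpS (p - 1))) := ⟨_, rfl⟩
  rw [← hgℤ] at hqg
  have hqF : qExpansion 1 (G.mul g) = ncpI (A * gℤ) := by
    rw [ModularForm.qExpansion_mul one_pos hΓ, hqG, hqg, map_mul]
  have hZF : T.Z (2 + ((p - 1 : ℕ) : ℤ)) (G.mul g) = ncpI Y := by
    rw [T.Z_mul 2 ((p - 1 : ℕ) : ℤ) G g (G.mul g) rfl, T.Z_two G, hqG, upSeries_map, hZg, hY]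
    have h5 : ncpI (PowerSeries.C (p : ℤ)) = PowerSeries.C (p : ℂ) := by
      simp [ncpI]
    have h6 : PowerSeries.C (-(p : ℂ)⁻¹) * PowerSeries.C (p : ℂ) = (-1 : PowerSeries ℂ) := by
      rw [← map_mul, neg_mul, inv_mul_cancel₀ hpC]
      simp
    generalize (PowerSeries.C α *
        (PowerSeries.expand p hp0 (ncpS (p - 1)) - ncpS (p - 1))) = W
    rw [PowerSeries.smul_eq_C_mul, map_mul ncpI (PowerSeries.C (p : ℤ)) W, h5,
      map_mul ncpI (-(upSeries p A)) W, map_neg ncpI (upSeries p A)]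
    show PowerSeries.C (-(p : ℂ)⁻¹) * ncpI (upSeries p A) * (PowerSeries.C (p : ℂ) * ncpI W) =
      -(ncpI (upSeries p A)) * ncpI W
    generalize ncpI (upSeries p A) = X
    generalize ncpI W = Z
    linear_combination (X * Z) * h6
  obtain ⟨e, he⟩ := T.trace_levelOne (2 + ((p - 1 : ℕ) : ℤ)) (G.mul g)
  rw [hqF, hZF, upSeries_map] at he
  have he' : qExpansion 1 e = ncpI (A * gℤ + PowerSeries.C (p : ℤ) * upSeries p Y) := by
    rw [he, map_add, map_mul ncpI (PowerSeries.C (p : ℤ))]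
    have h5 : ncpI (PowerSeries.C (p : ℤ)) = PowerSeries.C (p : ℂ) := by
      simp [ncpI]
    rw [h5, PowerSeries.smul_eq_C_mul]
  have hc : ∀ n, ∃ t : ℤ, PowerSeries.coeff n (A * gℤ + PowerSeries.C (p : ℤ) * upSeries p Y) =
      β * a n + (p : ℤ) * t := by
    intro n
    obtain ⟨t, ht⟩ := ncp_coeff_congr p (p - 1) hp0 (by omega) α β A (ncpS (p - 1))
      (upSeries p Y) n
    refine ⟨t, ?_⟩
    rw [hgℤ, hEℤ, ht, hA, PowerSeries.coeff_mk]
  have hpZ : Prime (p : ℤ) := Nat.prime_iff_prime_int.mp hp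
  have key := hS (2 + ((p - 1 : ℕ) : ℤ)) e
    (fun n => ((PowerSeries.coeff n (A * gℤ + PowerSeries.C (p : ℤ) * upSeries p Y) : ℤ) : ℚ))
    (fun n => by
      rw [he']
      simp only [ncpI, PowerSeries.coeff_map, eq_intCast, Rat.cast_intCast])
    (fun n => by
      simp only [Rat.den_intCast]
      exact fun h => hp.one_lt.ne' (Nat.dvd_one.mp h))
    (fun n hn => by
      simp only [Rat.num_intCast]
      obtain ⟨t, ht⟩ := hc n
      rw [ht]
      have h1 : (p : ℤ) ∣ a n := by simpa using hdiv n hn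
      exact dvd_add (dvd_mul_of_dvd_right h1 _) (dvd_mul_right _ _))
    (by
      simp only [Rat.num_intCast]
      obtain ⟨t, ht⟩ := hc 0
      rw [ht]
      intro h
      have h2 : (p : ℤ) ∣ β * a 0 := by
        have := Int.dvd_sub h (dvd_mul_right (p : ℤ) t)
        simpa using this
      rcases hpZ.dvd_or_dvd h2 with h3 | h3
      · exact hβ h3
      · exact ha0 h3)
  -- `(p - 1) ∣ (p + 1)` is absurd for `p ≥ 5`
  have hcast : ((p - 1 : ℕ) : ℤ) = (p : ℤ) - 1 := by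
    have : 1 ≤ p := by omega
    push_cast [Nat.cast_sub this]
    ring
  rw [hcast] at key
  have h2 : ((p : ℤ) - 1) ∣ 2 := by
    have := Int.dvd_sub key (dvd_refl ((p : ℤ) - 1))
    have h3 : (2 + ((p : ℤ) - 1) - ((p : ℤ) - 1)) = 2 := by ring
    rwa [h3] at this
  have h4 := Int.le_of_dvd (by norm_num) h2
  have h5 : (5 : ℤ) ≤ p := by exact_mod_cast hp5
  omega

end

end Fermat.Agent.S16
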